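import Fermat.Statements.S17
import Fermat.Agent.MordellWeil.Cube
import Fermat.Agent.MordellWeil.Northcott
import Fermat.Agent.MordellWeil.Descend
import Fermat.Agent.MordellWeil.Weak

set_option autoImplicit false
open ModularCurve AlgebraicCurve
open ModularCurve ModularCurve.JZero

namespace Fermat.Agent.S17

theorem result (N : ℕ) [NeZero N] (hN : N.Prime) (hN5 : 5 ≤ N) :
    AddGroup.FG ↥(FixedPoints.addSubgroup ((AlgebraicClosure ℚ) ≃ₐ[ℚ] (AlgebraicClosure ℚ)) (JZero N)) := by
  let S := Fermat.Agent.MordellWeil.modularSetting N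
  exact Fermat.Agent.MordellWeil.fg_fixedPoints_of_height_facts N
    (L := 5 * (2 * S.genus) + 3 * S.bound + 3 + 4 * S.genus) (bd := 2 * S.genus) le_rfl
    (show 4 * S.genus + 1 + S.bound ≤ 5 * (2 * S.genus) + 3 * S.bound + 3 + 4 * S.genus by omega)
    (S.exists_cube _ _ (show 5 * (2 * S.genus) + 3 * S.bound + 3 ≤ 5 * (2 * S.genus) + 3 * S.bound + 3 + 4 * S.genus by omega))
    (S.finite_of_pairHeight_le
      (show S.genus + 1 + S.bound ≤ 5 * (2 * S.genus) + 3 * S.bound + 3 + 4 * S.genus by omega))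
    (Fermat.Agent.MordellWeil.finiteIndex_two_fixedPoints N)

end Fermat.Agent.S17
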