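import Fermat.Statements.S09
import Fermat.Agent.Mazur.Glue
import Fermat.Agent.Mazur.RankZero
import Fermat.Agent.FLTSmall.Five
import Fermat.Agent.FLTSmall.ThirteenFLT
import Fermat.Agent.S10.FLT7

set_option autoImplicit false
open WeierstrassCurve WeierstrassCurve.Affine WeierstrassCurve.Affine.Point
open CuspForm ModularFormClass UpperHalfPlane
open FreyPackage

namespace Fermat.Agent.S09

theorem result (P : FreyPackage) : GaloisRepIsIrreducible (K := AlgebraicClosure ℚ) ℚ P.freyCurve P.p := by
  haveI : Fact P.p.Prime := ⟨P.pp⟩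
  by_cases hsmall : P.p = 5 ∨ P.p = 7 ∨ P.p = 13
  · have hab : IsCoprime P.a P.b := (gcd_isUnit_iff P.a P.b).1 (by rw [P.hgcdab]; exact isUnit_one)
    have h := P.hFLT
    exfalso
    rcases hsmall with hp | hp | hp <;> rw [hp] at h
    · exact Fermat.Agent.FLTSmall.flt_five_coprime P.ha0 P.hb0 P.hc0 hab h
    · have h0 : P.a * P.b * -P.c = 0 := Fermat.Agent.S10Seven.flt_seven P.a P.b (-P.c)
        (by rw [Odd.neg_pow (by decide : Odd 7)]; linear_combination h)
      exact P.habc0 (by linear_combination -h0)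
    · exact Fermat.Agent.FLTSmall.flt_thirteen_coprime P.ha0 P.hb0 P.hc0 hab h
  · refine Fermat.Agent.Mazur.frey_irreducible_of_rankZero P
      (Fermat.Agent.Mazur.rankZeroInput P.p ?_)
    push Not at hsmall
    by_contra hc
    push Not at hc
    obtain ⟨hc1, hc2⟩ := hc
    obtain ⟨hs1, hs2, hs3⟩ := hsmall
    have h5 := P.hp5
    have hp := P.pp
    interval_cases hq : P.p <;> norm_num at hp <;> omega

end Fermat.Agent.S09
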