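import Fermat.Statements.S05
import Fermat.Agent.EC.Mult.Qbar
import Fermat.Agent.Endgame.FreyCurve

set_option autoImplicit false
open WeierstrassCurve WeierstrassCurve.Affine WeierstrassCurve.Affine.Point
open CuspForm ModularFormClass UpperHalfPlane
open FreyPackage

namespace Fermat.Agent.S05

theorem result (P : FreyPackage) {q : ℕ} (hq : q.Prime) (hq2 : q ≠ 2) (hqp : q ≠ P.p) : P.GaloisRepUnramifiedAt q := by
  have : Fact q.Prime := ⟨hq⟩
  have hn : ¬ q ∣ P.p := fun h => hqp ((Nat.prime_dvd_prime_iff_eq hq P.pp).mp h)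
  have hv : P.p ∣ padicValInt q P.freyCurveInt.Δ := by
    have h2 : padicValInt q ((2 : ℤ) ^ 8) = 0 := by
      refine padicValInt.eq_zero_of_not_dvd fun h => hq2 ?_
      have h' : q ∣ 2 ^ 8 := by exact_mod_cast h
      exact (Nat.prime_dvd_prime_iff_eq hq Nat.prime_two).mp (hq.dvd_of_dvd_pow h')
    have h : padicValInt q (P.freyCurveInt.Δ * 2 ^ 8) =
        2 * P.p * padicValInt q (P.a * P.b * P.c) := by
      rw [Fermat.Agent.Endgame.freyCurveInt_Δ, padicValInt, Int.natAbs_pow, padicValNat.pow _,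
        padicValInt]
    rw [padicValInt.mul (Fermat.Agent.Endgame.freyCurveInt_Δ_ne_zero P) (by norm_num), h2,
      add_zero] at h
    exact ⟨2 * padicValInt q (P.a * P.b * P.c), by rw [h]; ring⟩
  have := Fermat.Agent.EC.Mult.galoisRepUnramifiedAt_of_dvd (W := P.freyCurveInt) hq
    (Fermat.Agent.Endgame.freyCurveInt_Δ_ne_zero P)
    (Fermat.Agent.Endgame.isSemistableModel P q hq) hn hv
  rwa [Fermat.Agent.Endgame.freyCurveInt_map] at this

end Fermat.Agent.S05
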