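import Fermat.Statements.S07
import Fermat.Prelude.Thm_ModularForm_sturm_bound_Gamma0

set_option autoImplicit false
open WeierstrassCurve WeierstrassCurve.Affine WeierstrassCurve.Affine.Point
open CuspForm ModularFormClass UpperHalfPlane
open ModularForm

namespace Fermat.Agent.S07

open CongruenceSubgroup in
theorem index_bound : (Gamma0 2).index ≤ 3 := by
  have hle : Gamma 2 ≤ Gamma0 2 := fun A hA => Gamma0_mem.2 (Gamma_mem.1 hA).2.2.1
  have h6 : (Gamma 2).index ≤ 6 := by
    rw [Gamma, Subgroup.index_ker]
    refine (Subgroup.card_le_card_group _).trans ?_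
    rw [Nat.card_eq_fintype_card]
    decide
  have hne : (Gamma 2).relIndex (Gamma0 2) ≠ 1 := fun h => by
    have := (Subgroup.relIndex_eq_one.1 h) (show ModularGroup.T ∈ Gamma0 2 by
      rw [Gamma0_mem]; simp [ModularGroup.T])
    rw [Gamma_mem] at this
    simp [ModularGroup.T] at this
  have hm := Subgroup.relIndex_mul_index hle
  have h0 : (Gamma 2).index ≠ 0 := Subgroup.FiniteIndex.index_ne_zero
  have h2 : 2 ≤ (Gamma 2).relIndex (Gamma0 2) := by
    rcases Nat.lt_or_ge ((Gamma 2).relIndex (Gamma0 2)) 2 with h | h
    · interval_cases (Gamma 2).relIndex (Gamma0 2)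
      · simp at hm; omega
      · exact absurd rfl hne
    · exact h
  nlinarith


theorem result (f : CuspForm (CongruenceSubgroup.Gamma0 2) 2) : f = 0 := by
  have h := ModularForm.sturm_bound_Gamma0 2 (f : ModularForm (CongruenceSubgroup.Gamma0 2) 2)
    (fun n hn => by
      have := index_bound
      obtain rfl : n = 0 := by omega
      exact CuspFormClass.qExpansion_coeff_zero f one_pos
        (by simp))
  ext z
  exact congrArg (fun g : ModularForm (CongruenceSubgroup.Gamma0 2) 2 => g z) h

end Fermat.Agent.S07
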