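import Fermat.Statements.S08
import Fermat.Prelude.Thm_ModularForm_sturm_bound_Gamma0

set_option autoImplicit false
open WeierstrassCurve WeierstrassCurve.Affine WeierstrassCurve.Affine.Point
open CuspForm ModularFormClass UpperHalfPlane
open ModularForm

namespace Fermat.Agent.S08

open CongruenceSubgroup in
theorem index_bound : (Gamma0 1).index ≤ 1 := by
  have : Gamma0 1 = ⊤ := top_unique fun A _ => Gamma0_mem.2 (Subsingleton.elim _ _)
  rw [this, Subgroup.index_top]


theorem result (f : CuspForm (CongruenceSubgroup.Gamma0 1) 2) : f = 0 := by
  have h := ModularForm.sturm_bound_Gamma0 1 (f : ModularForm (CongruenceSubgroup.Gamma0 1) 2)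
    (fun n hn => by
      have := index_bound
      obtain rfl : n = 0 := by omega
      exact CuspFormClass.qExpansion_coeff_zero f one_pos
        (by simp))
  ext z
  exact congrArg (fun g : ModularForm (CongruenceSubgroup.Gamma0 1) 2 => g z) h

end Fermat.Agent.S08
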