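import Fermat.Statements.S18
import Fermat.Agent.Reduction.TorsionAux

set_option autoImplicit false
open ModularCurve

namespace Fermat.Agent.S18

open AlgebraicCurve Fermat.Agent.Reduction Fermat.Agent.Curve in
theorem result (N : ℕ) [NeZero N] {ℓ : ℕ}
    [Fact ℓ.Prime] (hℓN : ¬ ℓ ∣ N) (A : ValuationSubring (AlgebraicClosure ℚ)) (hA : A.LiesOverPrime ℓ)
    (h : ModularCurve.ReductionInputsModL A N) (m : ℕ) (hm : ¬ ℓ ∣ m) (z : ModularCurve.JZero N)
    (hmz : m • z = 0) (hz : ModularCurve.reductionModL A N z = 0) :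
    z = 0 := by
  haveI := Fermat.Agent.EC.isAlgClosed_residueField A
  obtain ⟨D, rfl⟩ := Pic0.mk_surjective z
  rw [reductionModL_mk h] at hz
  have hrD := (QuotientAddGroup.eq_zero_iff _).mp hz
  obtain ⟨rM, -, hrM, -⟩ := exists_placeReduction_aux N hℓN A hA
  refine eq_zero_of_mapDomain_pullback_isPrincipal N hℓN A hA (isIntegralAlong _) hrM hm D hmz ?_
  rw [mapDomain_pullbackAlong_of_degree_eq_zero (r := placeReductionModL h)
    (isPlaceReductionModL_placeReductionModL h) h.choose_spec.2 hrM (isIntegralAlong _)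
    (isIntegralAlong (alphaRes _ N (auxFactor N ℓ))) D.2]
  exact Divisor.isPrincipal_pullbackAlong _ _ hrD

end Fermat.Agent.S18
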