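import Fermat.Statements.S49
import Fermat.Agent.Hecke.EigenformOfChar
import Fermat.Prelude.Thm_CuspForm_intLattice_fg
import Fermat.Prelude.Thm_CuspForm_mem_intLattice_of_mem_heckeAlgebra

set_option autoImplicit false
open CuspForm EisensteinWeightOne CongruenceSubgroup ModularFormClass
open FLT FLT.AbstractIntegralStructure

namespace Fermat.Agent.S49

variable {N : ℕ}

theorem mem_qIntegralSet_iff {f : CuspForm (Gamma0 N) 2} :
    f ∈ CuspForm.qIntegralSet N ↔ ∀ n : ℕ, ∃ m : ℤ, ModularFormClass.qCoeff f n = (m : ℂ) := by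
  simp only [CuspForm.qIntegralSet, Set.mem_ofPred_eq, Subring.mem_bot, eq_comm]

theorem mem_intLattice_of_qIntegral {f : CuspForm (Gamma0 N) 2}
    (hf : f ∈ CuspForm.qIntegralSet N) : f ∈ CuspForm.intLattice N 2 :=
  Submodule.subset_span (mem_qIntegralSet_iff.mp hf)

theorem qIntegral_of_mem_intLattice {f : CuspForm (Gamma0 N) 2}
    (hf : f ∈ CuspForm.intLattice N 2) :
    ∀ n : ℕ, ∃ m : ℤ, ModularFormClass.qCoeff f n = (m : ℂ) := by
  intro n
  induction hf using Submodule.span_induction with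
  | mem x hx => exact hx n
  | zero => exact ⟨0, by rw [Fermat.Agent.Hecke.qCoeff_zero]; simp⟩
  | add x y _ _ hx hy =>
    obtain ⟨a, ha⟩ := hx; obtain ⟨b, hb⟩ := hy
    exact ⟨a + b, by rw [Fermat.Agent.Hecke.qCoeff_add, ha, hb]; push_cast; rfl⟩
  | smul c x _ hx =>
    obtain ⟨a, ha⟩ := hx
    exact ⟨c * a, by
      rw [← Int.cast_smul_eq_zsmul ℂ, Fermat.Agent.Hecke.qCoeff_smul, ha]; push_cast; rfl⟩

/-- All coefficients of `f` are rational integers divisible by `3`. -/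
def CongZero (f : CuspForm (Gamma0 N) 2) : Prop :=
  ∀ n : ℕ, ∃ m : ℤ, ModularFormClass.qCoeff f n = ((3 * m : ℤ) : ℂ)

theorem CongZero.zero : CongZero (0 : CuspForm (Gamma0 N) 2) :=
  fun n => ⟨0, by rw [Fermat.Agent.Hecke.qCoeff_zero]; simp⟩

theorem CongZero.add {f g : CuspForm (Gamma0 N) 2} (hf : CongZero f) (hg : CongZero g) :
    CongZero (f + g) := fun n => by
  obtain ⟨a, ha⟩ := hf n; obtain ⟨b, hb⟩ := hg n
  exact ⟨a + b, by rw [Fermat.Agent.Hecke.qCoeff_add, ha, hb]; push_cast; ring⟩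

theorem CongZero.smul {f : CuspForm (Gamma0 N) 2} (c : ℤ) (hf : CongZero f) :
    CongZero ((c : ℂ) • f) := fun n => by
  obtain ⟨a, ha⟩ := hf n
  exact ⟨c * a, by rw [Fermat.Agent.Hecke.qCoeff_smul, ha]; push_cast; ring⟩

theorem CongZero.heckeAlgebra [NeZero N] {f : CuspForm (Gamma0 N) 2} (hf : CongZero f)
    (t : CuspForm.heckeAlgebra N 2 ∅) : CongZero ((t : Module.End ℂ _) f) := by
  have hg : (3 : ℂ)⁻¹ • f ∈ CuspForm.intLattice N 2 := by
    refine Submodule.subset_span fun n => ?_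
    obtain ⟨a, ha⟩ := hf n
    exact ⟨a, by rw [Fermat.Agent.Hecke.qCoeff_smul, ha]; push_cast; ring⟩
  have hfg : (3 : ℂ) • ((3 : ℂ)⁻¹ • f) = f := smul_inv_smul₀ (by norm_num) f
  intro n
  obtain ⟨a, ha⟩ := qIntegral_of_mem_intLattice
    (CuspForm.mem_intLattice_of_mem_heckeAlgebra one_le_two t.2 hg) n
  refine ⟨a, ?_⟩
  rw [← hfg, map_smul, Fermat.Agent.Hecke.qCoeff_smul, ha]; push_cast; ring

theorem chiNegThree_cong (n : ℕ) : (3 : ℤ) ∣ (n : ℤ) - chiNegThree n := by
  unfold EisensteinWeightOne.chiNegThree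
  split_ifs <;> omega

theorem bridgeProduct_cong (a : ℕ → ℤ) (n : ℕ) :
    (3 : ℤ) ∣ (bridgeProduct a).coeff n - a n := by
  rw [bridgeProduct, PowerSeries.coeff_mul]
  have key : ∀ m, (3 : ℤ) ∣ (e1Chi3In ℤ).coeff m - (if m = 0 then 1 else 0) := by
    intro m
    simp only [EisensteinWeightOne.e1Chi3In, EisensteinWeightOne.e1Chi3, PowerSeries.coeff_map,
      PowerSeries.coeff_mk]
    split_ifs with hm <;> simp
    exact Dvd.dvd.mul_right (by norm_num) _
  have hsum : (∑ p ∈ Finset.HasAntidiagonal.antidiagonal n,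
      a p.1 * (if p.2 = 0 then 1 else 0)) = a n := by
    rw [Finset.sum_eq_single (n, 0)]
    · simp
    · rintro ⟨x, y⟩ hp hne
      rw [if_neg, mul_zero]
      rintro rfl
      exact hne (by simpa using hp)
    · simp
  rw [← hsum, ← Finset.sum_sub_distrib]
  refine Finset.dvd_sum fun p _ => ?_
  rw [PowerSeries.coeff_mk, ← mul_sub]
  exact (key p.2).mul_left _

/-- `f` is congruent mod `3` to an eigenvector of every Hecke generator. -/
theorem congEigen_generators [NeZero N] {a af : ℕ → ℤ}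
    (heig : FormalHecke.IsEigensystem
      (fun ℓ => if ℓ ∣ N then 0 else ((chiNegThree ℓ : ℤ) : ℤ)) a)
    {f : CuspForm (Gamma0 N) 2} (haf : ∀ n, (af n : ℂ) = ModularFormClass.qCoeff f n)
    (hfa : ∀ n, (3 : ℤ) ∣ af n - a n)
    {t : Module.End ℂ (CuspForm (Gamma0 N) 2)} {ℓ : ℕ} (hℓ : ℓ.Prime)
    (ht : ∀ n, ModularFormClass.qCoeff (⇑(t f)) n = ((af (n * ℓ) +
      (if ℓ ∣ N then 0 else (ℓ : ℤ)) * (if ℓ ∣ n then af (n / ℓ) else 0) : ℤ) : ℂ)) :
    CongZero (t f + ((-a ℓ : ℤ) : ℂ) • f) := by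
  intro n
  have he := heig.2 ℓ hℓ n
  have hd : (3 : ℤ) ∣ af (n * ℓ) + (if ℓ ∣ N then 0 else (ℓ : ℤ)) *
      (if ℓ ∣ n then af (n / ℓ) else 0) + -a ℓ * af n := by
    have h1 := hfa (n * ℓ)
    have h2 : (3 : ℤ) ∣ (if ℓ ∣ N then 0 else (ℓ : ℤ)) * (if ℓ ∣ n then af (n / ℓ) else 0) -
        (if ℓ ∣ N then 0 else chiNegThree ℓ) * (if ℓ ∣ n then a (n / ℓ) else 0) := by
      split_ifs <;> try simp
      obtain ⟨x, hx⟩ := chiNegThree_cong ℓ
      obtain ⟨y, hy⟩ := hfa (n / ℓ)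
      exact ⟨x * af (n / ℓ) + chiNegThree ℓ * y, by linear_combination af (n / ℓ) * hx + chiNegThree ℓ * hy⟩
    obtain ⟨x, hx⟩ := h1; obtain ⟨y, hy⟩ := h2; obtain ⟨z, hz⟩ := hfa n
    rw [mul_comm ℓ n] at he
    exact ⟨x + y - a ℓ * z, by
      linear_combination hx + hy - a ℓ * hz + he⟩
  obtain ⟨m, hm⟩ := hd
  exact ⟨m, by
    rw [Fermat.Agent.Hecke.qCoeff_add, Fermat.Agent.Hecke.qCoeff_smul, ht, ← haf, ← hm]
    push_cast; ring⟩

end Fermat.Agent.S49

namespace Fermat.Agent.S49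

theorem result
    {N : ℕ} [NeZero N] (h : CuspForm.HasIntegralBasis N) {a : ℕ → ℤ}
    (heig : FormalHecke.IsEigensystem
      (fun ℓ => if ℓ ∣ N then 0 else ((chiNegThree ℓ : ℤ) : ℤ)) a)
    (hreal : CuspForm.IsLatticeRealized N a) :
    ∃ (f : CuspForm (Gamma0 N) 2) (_ : f.IsNormalizedEigenform)
      (𝔪' : Ideal (integralClosure ℤ ℂ)), 𝔪'.IsMaximal ∧
      ((3 : ℕ) : integralClosure ℤ ℂ) ∈ 𝔪' ∧
      ∀ (ℓ : ℕ) (_ : ℓ.Prime) (_ : ¬ ℓ ∣ N),
        ∃ c : integralClosure ℤ ℂ, (c : ℂ) = ModularFormClass.qCoeff f ℓ ∧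
          c - (a ℓ : integralClosure ℤ ℂ) ∈ 𝔪' := by
  classical
  obtain ⟨g, hg, af, haf, hcong⟩ := hreal
  have hfa : ∀ n, (3 : ℤ) ∣ af n - a n := fun n => by
    have := (hcong n).add (bridgeProduct_cong a n)
    simpa using this
  have hgl : g ∈ CuspForm.intLattice N 2 := mem_intLattice_of_qIntegral hg
  let L : Submodule ℤ (CuspForm (Gamma0 N) 2) := CuspForm.intLattice N 2
  have hLfg : L.FG := CuspForm.intLattice_fg N 2
  have hLspan : Submodule.span ℂ (L : Set (CuspForm (Gamma0 N) 2)) = ⊤ :=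
    top_le_iff.mp (h.ge.trans (Submodule.span_mono fun x hx => mem_intLattice_of_qIntegral hx))
  have : FiniteDimensional ℂ (CuspForm (Gamma0 N) 2) := by
    obtain ⟨s, hs⟩ := hLfg
    refine ⟨⟨s, top_le_iff.mp (hLspan.ge.trans (Submodule.span_le.mpr ?_))⟩⟩
    rw [← hs]
    exact Submodule.span_subset_span ℤ ℂ _
  -- the Hecke algebra is finite over `ℤ`
  let T := CuspForm.heckeAlgebra N 2 ∅
  let res : T →ₗ[ℤ] (L →ₗ[ℤ] L) :=
    { toFun := fun t => ((t : Module.End ℂ (CuspForm (Gamma0 N) 2)).restrictScalars ℤ).restrict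
        fun x hx => CuspForm.mem_intLattice_of_mem_heckeAlgebra one_le_two t.2 hx
      map_add' := fun _ _ => rfl
      map_smul' := fun _ _ => rfl }
  have hres : Function.Injective res := fun s t hst =>
    Subtype.ext (LinearMap.ext_on hLspan fun x hx =>
      congrArg Subtype.val (LinearMap.congr_fun hst ⟨x, hx⟩))
  have : Module.Finite ℤ L := Module.Finite.iff_fg.mpr hLfg
  have : Module.IsTorsionFree ℤ (CuspForm (Gamma0 N) 2) :=
    Module.IsTorsionFree.trans_faithfulSMul ℤ ℂ _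
  have : Module.Free ℤ L := Module.free_of_finite_type_torsion_free'
  have : Module.Finite ℤ T := Module.Finite.of_injective res hres
  have : Algebra.IsIntegral ℤ T := Algebra.IsIntegral.of_finite ℤ T
  -- every Hecke operator acts on `g` by a scalar mod `3`
  have heigen : ∀ t : T, ∃ c : ℤ, CongZero ((t : Module.End ℂ _) g + ((-c : ℤ) : ℂ) • g) := by
    rintro ⟨t, ht⟩
    show ∃ c : ℤ, CongZero (t g + ((-c : ℤ) : ℂ) • g)
    induction ht using Algebra.adjoin_induction with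
    | mem t ht =>
      rcases ht with ⟨ℓ, hℓ, hℓN, -, rfl⟩ | ⟨q, hqN, hq, -, rfl⟩
      · refine ⟨a ℓ, congEigen_generators heig haf hfa hℓ fun n => ?_⟩
        rw [Fermat.Agent.Hecke.qCoeff_heckeTLin, ModularForm.coeffHeckeT_apply, if_neg hℓN]
        split_ifs <;> simp [haf]
      · refine ⟨a q, congEigen_generators heig haf hfa hq fun n => ?_⟩
        rw [Fermat.Agent.Hecke.qCoeff_heckeULin hq, if_pos hqN]
        simp [haf]
    | algebraMap r =>
      refine ⟨r, ?_⟩
      convert CongZero.zero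
      simp [← Int.cast_smul_eq_zsmul ℂ]
    | add x y _ _ hx hy =>
      obtain ⟨c, hc⟩ := hx; obtain ⟨d, hd⟩ := hy
      refine ⟨c + d, ?_⟩
      convert hc.add hd using 1
      simp only [LinearMap.add_apply, neg_add, Int.cast_add, add_smul]
      abel
    | mul x y hxm hym hx hy =>
      obtain ⟨c, hc⟩ := hx; obtain ⟨d, hd⟩ := hy
      refine ⟨c * d, ?_⟩
      convert (hd.heckeAlgebra ⟨x, hxm⟩).add (hc.smul d) using 1
      simp only [Module.End.mul_apply, map_add, map_smul]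
      push_cast
      module
  -- the eigencharacter mod `3`
  choose lam hlam using heigen
  have huniq : ∀ (t : T) (c : ℤ), CongZero ((t : Module.End ℂ _) g + ((-c : ℤ) : ℂ) • g) →
      (lam t : ZMod 3) = (c : ZMod 3) := by
    intro t c hc
    obtain ⟨x, hx⟩ := hlam t 1
    obtain ⟨y, hy⟩ := hc 1
    rw [Fermat.Agent.Hecke.qCoeff_add, Fermat.Agent.Hecke.qCoeff_smul, ← haf] at hx hy
    have h1 : (c - lam t) * af 1 = 3 * (x - y) := by
      apply Int.cast_injective (α := ℂ)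
      push_cast at hx hy ⊢
      linear_combination hx - hy
    obtain ⟨z, hz⟩ := hfa 1
    rw [heig.1] at hz
    rw [eq_comm, ← sub_eq_zero, ← Int.cast_sub, ZMod.intCast_zmod_eq_zero_iff_dvd]
    exact ⟨x - y - (c - lam t) * z, by push_cast; linear_combination h1 - (c - lam t) * hz⟩
  let χ : T →+* ZMod 3 :=
    { toFun := fun t => (lam t : ZMod 3)
      map_one' := by
        rw [huniq 1 1 (by convert CongZero.zero; simp)]; simp
      map_mul' := fun s t => by
        rw [huniq (s * t) (lam s * lam t) ?_]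
        · push_cast; rfl
        convert ((hlam t).heckeAlgebra s).add ((hlam s).smul (lam t)) using 1
        simp only [Subalgebra.coe_mul, Module.End.mul_apply, map_add, map_smul]
        push_cast
        module
      map_zero' := by
        rw [huniq 0 0 (by convert CongZero.zero; simp)]; simp
      map_add' := fun s t => by
        rw [huniq (s + t) (lam s + lam t) ?_]
        · push_cast; rfl
        convert (hlam s).add (hlam t) using 1
        simp only [Subalgebra.coe_add, LinearMap.add_apply, neg_add, Int.cast_add, add_smul]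
        abel }
  have hI : (RingHom.ker χ).IsMaximal :=
    RingHom.ker_isMaximal_of_surjective χ (ZMod.ringHom_surjective χ)
  obtain ⟨φ, f, hker, hnorm, -, hfT, -⟩ :=
    Fermat.Agent.Hecke.exists_normalizedEigenform_ker_le (RingHom.ker χ)
  -- lift to the algebraic integers
  let ψ : T →+* integralClosure ℤ ℂ := φ.codRestrict (integralClosure ℤ ℂ) fun t =>
    (Algebra.IsIntegral.isIntegral (R := ℤ) t).map φ.toIntAlgHom
  let _ : Algebra T (integralClosure ℤ ℂ) := ψ.toAlgebra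
  have : IsScalarTower ℤ T (integralClosure ℤ ℂ) :=
    IsScalarTower.of_algebraMap_eq fun r => by simp
  have : Algebra.IsIntegral T (integralClosure ℤ ℂ) := Algebra.IsIntegral.tower_top (R := ℤ)
  obtain ⟨M, hM, hMc⟩ := Ideal.exists_ideal_over_maximal_of_isIntegral
    (S := integralClosure ℤ ℂ) (RingHom.ker χ) (fun t ht => hker (RingHom.mem_ker.mpr
      (congrArg Subtype.val (RingHom.mem_ker.mp ht))))
  have hmem : ∀ t : T, ψ t ∈ M ↔ χ t = 0 := fun t => by
    rw [← RingHom.mem_ker, ← hMc]; exact Ideal.mem_comap.symm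
  refine ⟨f, hnorm, M, hM, ?_, fun ℓ hℓ hℓN => ?_⟩
  · have := (hmem 3).mpr (by rw [map_ofNat]; rfl)
    rwa [map_ofNat] at this
  let Tℓ : T := CuspForm.heckeAlgebra.T hℓ hℓN (Set.notMem_empty ℓ)
  refine ⟨ψ Tℓ, (hfT ℓ hℓ hℓN).symm, ?_⟩
  have hval : χ (Tℓ - (a ℓ : T)) = 0 := by
    rw [map_sub, map_intCast, sub_eq_zero]
    refine huniq _ _ (congEigen_generators heig haf hfa hℓ fun n => ?_)
    show ModularFormClass.qCoeff (⇑(CuspForm.heckeTLin 2 hℓ hℓN g)) n = _
    rw [Fermat.Agent.Hecke.qCoeff_heckeTLin, ModularForm.coeffHeckeT_apply, if_neg hℓN]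
    split_ifs <;> simp [haf]
  have := (hmem _).mpr hval
  rwa [map_sub, map_intCast] at this

end Fermat.Agent.S49
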