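import Fermat.Statements.S02
import Fermat.Agent.Endgame.FreyPackageExists

set_option autoImplicit false
open FreyPackage

namespace Fermat.Agent.S02

theorem result (a b c : ℤ) (ha : a ≠ 0) (hb : b ≠ 0) (hc : c ≠ 0) (p : ℕ) (pp : p.Prime) (hp5 : 5 ≤ p) (H : a ^ p + b ^ p = c ^ p) : Nonempty FreyPackage :=
  Fermat.Agent.Endgame.exists_freyPackage a b c ha hb hc p pp hp5 H

end Fermat.Agent.S02
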