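import Fermat.Statements.S03
import Fermat.Agent.Endgame.SquareProved

set_option autoImplicit false
open FreyPackage

namespace Fermat.Agent.S03

theorem result (P : FreyPackage) : False := by
  exact Fermat.Agent.Endgame.no_freyPackage_of_square Fermat.Agent.Endgame.squareRouteInputs_proved P
    Fermat.Agent.Endgame.freyLevelLowering
    Fermat.Agent.Endgame.freyLevelLoweringAtP_proved (fun P => Fermat.Agent.S09.result P)

end Fermat.Agent.S03
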