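import Fermat.Statements.S10
import Fermat.Agent.FLTSmall.Five
import Fermat.Agent.FLTSmall.ThirteenFLT
import Fermat.Agent.S10.FLT7

set_option autoImplicit false
open WeierstrassCurve WeierstrassCurve.Affine WeierstrassCurve.Affine.Point
open CuspForm ModularFormClass UpperHalfPlane
open FreyPackage

namespace Fermat.Agent.S10

theorem result (P : FreyPackage) (hp : P.p = 5 ∨ P.p = 7 ∨ P.p = 13) : ¬ HasGaloisStableCofixedLine (K := AlgebraicClosure ℚ) ℚ P.freyCurve P.p := by
  intro _
  have hab : IsCoprime P.a P.b := (gcd_isUnit_iff P.a P.b).1 (by rw [P.hgcdab]; exact isUnit_one)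
  have h := P.hFLT
  rcases hp with hp | hp | hp <;> rw [hp] at h
  · exact Fermat.Agent.FLTSmall.flt_five_coprime P.ha0 P.hb0 P.hc0 hab h
  · have h0 : P.a * P.b * -P.c = 0 := Fermat.Agent.S10Seven.flt_seven P.a P.b (-P.c)
      (by rw [Odd.neg_pow (by decide : Odd 7)]; linear_combination h)
    exact P.habc0 (by linear_combination -h0)
  · exact Fermat.Agent.FLTSmall.flt_thirteen_coprime P.ha0 P.hb0 P.hc0 hab h

end Fermat.Agent.S10
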