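import Fermat.Statements.S11
import Fermat.Agent.FLTSmall.Main
import Fermat.Agent.FLTSmall.Eleven
import Fermat.Agent.FLTSmall.KummerInstances

set_option autoImplicit false
open WeierstrassCurve WeierstrassCurve.Affine WeierstrassCurve.Affine.Point
open CuspForm ModularFormClass UpperHalfPlane
open FreyPackage

namespace Fermat.Agent.S11

lemma germain_cons : ∀ u v : ZMod 23, u ≠ 0 → v ≠ 0 → u ^ 11 + v ^ 11 ≠ 1 := by decide

lemma germain_npow : ∀ u : ZMod 23, u ^ 11 ≠ ((11 : ℕ) : ZMod 23) := by decide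

theorem result (P : FreyPackage) (hp : P.p = 11) : ¬ HasGaloisStableCofixedLine (K := AlgebraicClosure ℚ) ℚ P.freyCurve P.p := by
  intro _
  have : Fact (Nat.Prime 11) := ⟨by norm_num⟩
  have : Fact (Nat.Prime 23) := ⟨by norm_num⟩
  have : NeZero ((11 : ℕ) : ℚ) := ⟨by norm_num⟩
  have : IsCyclotomicExtension {11} ℚ (CyclotomicField 11 ℚ) := by
    convert! CyclotomicField.isCyclotomicExtension 11 ℚ
  have := IsCyclotomicExtension.numberField {11} ℚ (CyclotomicField 11 ℚ)
  have := Fermat.Agent.FLTSmall.eleven_pid (CyclotomicField 11 ℚ)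
  have hab : IsCoprime P.a P.b := (gcd_isUnit_iff P.a P.b).1 (by rw [P.hgcdab]; exact isUnit_one)
  have h := P.hFLT
  rw [hp] at h
  exact Fermat.Agent.FLTSmall.flt_coprime (CyclotomicField 11 ℚ) (by decide)
    (Fermat.Agent.FLTSmall.Kummer.kummer_eleven (CyclotomicField 11 ℚ)) 23
    germain_cons germain_npow
    P.ha0 P.hb0 P.hc0 hab h

end Fermat.Agent.S11
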