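import Fermat.Statements.S12
import Fermat.Agent.Mazur.Glue
import Fermat.Agent.Mazur.RankZero

set_option autoImplicit false
open WeierstrassCurve WeierstrassCurve.Affine WeierstrassCurve.Affine.Point
open CuspForm ModularFormClass UpperHalfPlane
open FreyPackage

namespace Fermat.Agent.S12

theorem result (P : FreyPackage) (hp : 17 ≤ P.p) : ¬ HasGaloisStableCofixedLine (K := AlgebraicClosure ℚ) ℚ P.freyCurve P.p := by
  haveI : Fact P.p.Prime := ⟨P.pp⟩
  exact Fermat.Agent.Mazur.frey_no_cofixed_of_rankZero P
    (Fermat.Agent.Mazur.rankZeroInput P.p (Or.inr hp))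

end Fermat.Agent.S12
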