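import Fermat.Statements.S13
import Fermat.Agent.EC.Reducible.CofixedLine
import Fermat.Agent.Endgame.FreyCurve

set_option autoImplicit false
open WeierstrassCurve WeierstrassCurve.Affine WeierstrassCurve.Affine.Point
open CuspForm ModularFormClass UpperHalfPlane
open FreyPackage

namespace Fermat.Agent.S13

/-- `p` does not divide the valuation at `2` of the discriminant of the Frey curve. -/
theorem not_dvd_padicValInt_two (P : FreyPackage) :
    ¬ P.p ∣ padicValInt 2 P.freyCurveInt.Δ := by
  intro h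
  have : Fact (Nat.Prime 2) := ⟨Nat.prime_two⟩
  have hv := congrArg (padicValInt 2) (Fermat.Agent.Endgame.freyCurveInt_Δ P)
  simp only [padicValInt, Int.natAbs_mul, Int.natAbs_pow] at hv
  rw [padicValNat.mul (Int.natAbs_ne_zero.mpr (Fermat.Agent.Endgame.freyCurveInt_Δ_ne_zero P))
    (by norm_num), padicValNat.pow, padicValNat.pow] at hv
  have h28 : padicValNat 2 (Int.natAbs 2) = 1 := padicValNat.self one_lt_two
  rw [h28] at hv
  have hdvd : P.p ∣ 8 := by
    have h2 : P.p ∣ padicValNat 2 P.freyCurveInt.Δ.natAbs + 8 * 1 := by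
      rw [hv]; exact dvd_mul_of_dvd_left (dvd_mul_left _ _) _
    simpa using (Nat.dvd_add_right h).mp h2
  have h8 : P.p ∣ 2 ^ 3 := by simpa using hdvd
  have := Nat.le_of_dvd two_pos (P.pp.dvd_of_dvd_pow h8)
  have := P.hp5
  omega

theorem result (P : FreyPackage) (hred : ¬ GaloisRepIsIrreducible (K := AlgebraicClosure ℚ) ℚ P.freyCurve P.p) : HasGaloisStableCofixedLine (K := AlgebraicClosure ℚ) ℚ P.freyCurve P.p := by
  have : Fact P.p.Prime := ⟨P.pp⟩
  rw [← Fermat.Agent.Endgame.freyCurveInt_map P] at hred ⊢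
  exact Fermat.Agent.EC.Reducible.hasGaloisStableCofixedLine_of_reducible
    (Fermat.Agent.Endgame.freyCurveInt_Δ_ne_zero P) (Fermat.Agent.Endgame.isSemistableModel P)
    (Fermat.Agent.Endgame.two_dvd_Δ P) P.hp5 (not_dvd_padicValInt_two P) hred

end Fermat.Agent.S13
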