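import Fermat.Statements.S16
import Fermat.Agent.Eisenstein.Assembly
import Fermat.Agent.Eisenstein.UpperBound

set_option autoImplicit false
open ModularCurve CuspForm
open ModularCurve

namespace Fermat.Agent.S16

theorem result
    (p : ℕ) [Fact p.Prime] :
    Nat.card (↥(heckeLatticeAlgebra p ∅) ⧸
        Ideal.map ((latticeRestrictHom p ∅).toRingHom.comp (heckeEvalForms p 2))
          (eisensteinIdeal p)) =
      eisensteinNumerator p :=
  Fermat.Agent.Eisenstein.natCard_eisenstein_quotient p fun m f a hf hcong =>
    Fermat.Agent.Eisenstein.eisenstein_congruence_bound Fact.out f a hf fun k _ => by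
      rw [← ZMod.intCast_zmod_eq_zero_iff_dvd]
      simp [hcong k]

end Fermat.Agent.S16
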