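import Fermat.Statements.S41
import Fermat.Agent.LevelRaise.Main
import Fermat.Agent.LevelRaise.NonEisenstein

set_option autoImplicit false
open WeierstrassCurve WeierstrassCurve.Affine WeierstrassCurve.Affine.Point
open scoped CongruenceSubgroup
open WeierstrassCurve

namespace Fermat.Agent.S41

open Fermat.Agent.Periods Fermat.Agent.LevelRaise in
theorem result
    (E : WeierstrassCurve ℚ) [E.IsElliptic] {W : WeierstrassCurve ℤ} (hW : W.IsIntegralModelOf E)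
    {p N q' : ℕ} (hp : p.Prime) (hp2 : p ≠ 2) (hN : 0 < N) (hq' : q'.Prime) (hq'N : ¬ q' ∣ N) (hq'p : q' ≠ p)
    (hirr : GaloisRepIsIrreducible (K := AlgebraicClosure ℚ) ℚ E p)
    (f : CuspForm (CongruenceSubgroup.Gamma0 N) 2) (𝔪 : Ideal (integralClosure ℤ ℂ))
    (hf : f.IsNormalizedEigenform) (hmax : 𝔪.IsMaximal) (hpm : (p : integralClosure ℤ ℂ) ∈ 𝔪)
    (hcong : ∀ ℓ : ℕ, ℓ.Prime → W.IsGoodPrimeFor ℓ → ¬ ℓ ∣ N → ℓ ≠ p →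
      ∃ a : integralClosure ℤ ℂ, (a : ℂ) = ModularFormClass.qCoeff f ℓ ∧
        a - ((W.apOfModel ℓ : ℤ) : integralClosure ℤ ℂ) ∈ 𝔪)
    (hLR : ∃ a : integralClosure ℤ ℂ, (a : ℂ) = ModularFormClass.qCoeff f q' ∧
      a ^ 2 - ((q' : integralClosure ℤ ℂ) + 1) ^ 2 ∈ 𝔪) :
    ∃ (g : CuspForm (CongruenceSubgroup.Gamma0 (N * q')) 2) (𝔪' : Ideal (integralClosure ℤ ℂ)),
      g.IsNormalizedEigenform ∧ 𝔪'.IsMaximal ∧ (p : integralClosure ℤ ℂ) ∈ 𝔪' ∧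
      (∀ ℓ : ℕ, ℓ.Prime → W.IsGoodPrimeFor ℓ → ¬ ℓ ∣ N * q' → ℓ ≠ p →
        ∃ a : integralClosure ℤ ℂ, (a : ℂ) = ModularFormClass.qCoeff g ℓ ∧
          a - ((W.apOfModel ℓ : ℤ) : integralClosure ℤ ℂ) ∈ 𝔪') ∧
      g.IsNewAt q' := by
  have : NeZero N := ⟨hN.ne'⟩
  have : NeZero q' := ⟨hq'.ne_zero⟩
  obtain ⟨a, ha, hsq⟩ := hLR
  -- the sign
  obtain ⟨ε, hε, hεa⟩ : ∃ ε : ℤ, ε * ε = 1 ∧
      a - ((ε * (q' + 1) : ℤ) : integralClosure ℤ ℂ) ∈ 𝔪 := by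
    have hmul : (a - ((q' : integralClosure ℤ ℂ) + 1)) * (a + ((q' : integralClosure ℤ ℂ) + 1)) ∈ 𝔪 := by
      rw [show (a - ((q' : integralClosure ℤ ℂ) + 1)) * (a + ((q' : integralClosure ℤ ℂ) + 1)) =
        a ^ 2 - ((q' : integralClosure ℤ ℂ) + 1) ^ 2 by ring]
      exact hsq
    rcases hmax.isPrime.mem_or_mem hmul with h | h
    · exact ⟨1, by norm_num, by simpa using h⟩
    · refine ⟨-1, by norm_num, ?_⟩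
      have e : ((-1 * (q' + 1) : ℤ) : integralClosure ℤ ℂ) = -((q' : integralClosure ℤ ℂ) + 1) := by
        push_cast; ring
      rw [e, sub_neg_eq_add]
      exact h
  classical
  obtain ⟨φ, hφ, hφ0, hTφ⟩ := exists_modp_eigenclass hp hf hmax hpm
    ({ℓ | W.IsGoodPrimeFor ℓ ∧ ¬ ℓ ∣ N ∧ ℓ ≠ p} ∪ {q'})
    (fun ℓ => if ℓ = q' then ε * (q' + 1) else W.apOfModel ℓ)
    (fun ℓ hℓ hℓprime => by
      by_cases h : ℓ = q'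
      · subst h; simp only [if_true]; exact ⟨a, ha, hεa⟩
      · simp only [if_neg h]
        obtain ⟨h1, h2, h3⟩ := hℓ.resolve_right h
        exact hcong ℓ hℓprime h1 h2 h3)
  obtain ⟨ℓ₀, hℓ₀, hgood₀, hℓ₀p, hℓ₀M, hℓ₀1, hne₀⟩ :=
    exists_good_prime_not_eisenstein E hW hp hp2 hirr (N * q')
  have hℓ₀q : ℓ₀ ≠ q' := fun h => hℓ₀M (h ▸ dvd_mul_left q' N)
  have hℓ₀N : ¬ ℓ₀ ∣ N := fun h => hℓ₀M (h.mul_right q')
  have hℓ₀1' : (ℓ₀ : ZMod N) = 1 := by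
    simpa using congrArg (ZMod.castHom (dvd_mul_right N q') (ZMod N)) hℓ₀1
  obtain ⟨x, hx, hU, hx0, hT⟩ := exists_new_class hp hp2 hq' hq'N hφ hφ0 hε
    (by simpa using hTφ q' (Or.inr rfl) hq') hℓ₀ hℓ₀q hℓ₀N hℓ₀1' (a₀ := W.apOfModel ℓ₀)
    (by exact_mod_cast hne₀)
    (by simpa [hℓ₀q] using hTφ ℓ₀ (Or.inl ⟨hgood₀, hℓ₀N, hℓ₀p⟩) hℓ₀)
  obtain ⟨g, 𝔪', hg, hmax', hpm', hnew, hg'⟩ :=
    exists_newAt_eigenform hp hq' (dvd_mul_left q' N) x hx hx0 hU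
      {ℓ | W.IsGoodPrimeFor ℓ ∧ ¬ ℓ ∣ N * q' ∧ ℓ ≠ p} W.apOfModel
      (fun ℓ hℓ hℓprime => by
        have hne : ℓ ≠ q' := fun h => hℓ.2.1 (h ▸ dvd_mul_left q' N)
        exact hT ℓ hℓprime (W.apOfModel ℓ) hne (by
          simpa [hne] using hTφ ℓ (Or.inl ⟨hℓ.1, fun h => hℓ.2.1 (h.mul_right q'), hℓ.2.2⟩) hℓprime))
  exact ⟨g, 𝔪', hg, hmax', hpm', fun ℓ hℓ h1 h2 h3 => hg' ℓ ⟨h1, h2, h3⟩ hℓ, hnew⟩

end Fermat.Agent.S41
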