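import Fermat.Statements.S42
import Fermat.Agent.EichlerShimura.S29Of
import Fermat.Agent.EichlerShimura.S42Of
import Fermat.Agent.EichlerShimura.Inputs

set_option autoImplicit false
open FreyPackage

namespace Fermat.Agent.S42

theorem result (P : FreyPackage) :
    ∀ M : ℕ, 0 < M → P.EigenformResidualAttachmentAt M := by
  intro M _
  refine Fermat.Agent.EichlerShimura.eigenformResidualAttachmentAt_of P M fun g hg k _ _ φ => ?_
  obtain ⟨ρ, hρ, -⟩ := Fermat.Agent.EichlerShimura.exists_residualGaloisRep_isAttachedTo_of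
    (fun N _ => Fermat.Agent.EichlerShimura.kummerIso_modular N)
    (fun N _ p _ => Fermat.Agent.EichlerShimura.frobeniusOnTorsion_modular N p)
    (fun N _ => Fermat.Agent.EichlerShimura.galoisFiniteLevel_modular N) hg P.pp φ
  exact ⟨ρ, hρ⟩

end Fermat.Agent.S42
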