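import Fermat.Statements.S43
import Fermat.Agent.Endgame.FreyLowering
import Fermat.Agent.BadPrime.Mazur.Local.Main
import Fermat.Agent.LevelP.Ordinary.Datum
import Fermat.Agent.RT.Assembly.NoTWLevel
import Fermat.Agent.RT.Assembly.Externals

set_option autoImplicit false
open WeierstrassCurve WeierstrassCurve.Affine WeierstrassCurve.Affine.Point
open CuspForm ModularFormClass UpperHalfPlane
open FreyPackage

namespace Fermat.Agent.S43

theorem result (P : FreyPackage) {N q : ℕ} (hcond : P.IsConductorLevel N) (hq : q.Prime) (hq2 : q ≠ 2) (hqp : q ≠ P.p) (hqN : q ∣ N) (hirr : GaloisRepIsIrreducible (K := AlgebraicClosure ℚ) ℚ P.freyCurve P.p) (hmod : P.ModularRepOfLevel N) (hunr : P.GaloisRepUnramifiedAt q) : ∃ M : ℕ, M ∣ N ∧ ¬ q ∣ M ∧ P.ModularRepOfLevel M :=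
  Endgame.freyLevelLowering_of
    (fun q _ _ _ _ hq hq2 hp hp5 hqp hqM h2M =>
      haveI : Fact q.Prime := ⟨hq⟩
      BadPrime.Mazur.Local.localInputs hp hp5 (Ne.symm hqp) ⟨fun h => absurd h hq2, fun _ => h2M⟩ hqM)
    (RT.Assembly.noMinimalTWLevel_of_inputs (fun hg _ hp _ _ _ φ => S29.result hg hp φ)
      BadPrime.newformMultRep_modular (fun p _ _ => RT.Assembly.localInputs_of p)
      (fun _ _ hp2 => LevelP.strictOrdinaryOfNewform hp2))
    P hcond hq hq2 hqp hqN hirr hmod hunr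

end Fermat.Agent.S43
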