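import Fermat.Statements.S54
import Fermat.Agent.Galois.Frobenius

set_option autoImplicit false
open GaloisRep GaloisRep.DeformationRingData

namespace Fermat.Agent.S54

open Polynomial in
/-- The trace of an endomorphism of a free module of rank two with characteristic polynomial
`X ^ 2 - a X + b` is `a`. -/
theorem trace_eq_of_charpoly {A V : Type*} [CommRing A] [Nontrivial A] [AddCommGroup V] [Module A V]
    [Module.Free A V] [Module.Finite A V] (f : Module.End A V) {a b : A}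
    (hrank : Module.finrank A V = 2) (h : LinearMap.charpoly f = X ^ 2 - C a * X + C b) :
    LinearMap.trace A V f = a := by
  classical
  let bas := Module.Free.chooseBasis A V
  have hcard : Fintype.card (Module.Free.ChooseBasisIndex A V) = 2 := by
    rw [← Module.finrank_eq_card_chooseBasisIndex, hrank]
  have : Nonempty (Module.Free.ChooseBasisIndex A V) := Fintype.card_pos_iff.mp (by omega)
  rw [LinearMap.trace_eq_matrix_trace A bas, Matrix.trace_eq_neg_charpoly_coeff,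
    LinearMap.charpoly_toMatrix, h, hcard]
  simp [coeff_C]

/-- The trace of a base-changed endomorphism. -/
theorem trace_baseChangeAlong {A B : Type} [CommRing A] [IsLocalRing A] [CommRing B]
    [IsLocalRing B] (f : A →+* B) (hf : IsLocalHom f) (r : GaloisRepAdic A)
    (σ : AlgebraicClosure ℚ ≃ₐ[ℚ] AlgebraicClosure ℚ) :
    (r.baseChangeAlong f hf).trace σ = f (r.trace σ) := by
  letI : Algebra A B := f.toAlgebra
  exact LinearMap.trace_baseChange (r.ρ σ) B

/-- Equivalent representations have the same trace. -/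
theorem trace_eq_of_equiv {A : Type} [CommRing A] [IsLocalRing A] {r r' : GaloisRepAdic A}
    (e : GaloisRepAdic.Equiv r r') (σ : AlgebraicClosure ℚ ≃ₐ[ℚ] AlgebraicClosure ℚ) :
    r.trace σ = r'.trace σ := by
  have h : r'.ρ σ = e.toLinearEquiv.conj (r.ρ σ) := LinearMap.ext fun y => by
    rw [LinearEquiv.conj_apply_apply, e.map_apply, LinearEquiv.apply_symm_apply]
  rw [GaloisRepAdic.trace, GaloisRepAdic.trace, h, LinearMap.trace_conj']

theorem result {𝒪 : Type} [CommRing 𝒪] [IsDomain 𝒪] [IsDiscreteValuationRing 𝒪] [IsAdicComplete (IsLocalRing.maximalIdeal 𝒪) 𝒪] {ρbar : ResidualGaloisRep (IsLocalRing.ResidueField 𝒪)} {𝒟 : ∀ ⦃A : Type⦄ [CommRing A] [IsLocalRing A] [Algebra 𝒪 A], GaloisRepAdic A → Prop} (D : GaloisRep.DeformationRingData 𝒪 ρbar 𝒟) {N : ℕ} [NeZero N] {S : Set ℕ} {θ : CuspForm.heckeAlgebra N 2 S →+* IsLocalRing.ResidueField 𝒪} {T : Type} [CommRing T] [IsLocalRing T] [IsNoetherianRing T] [IsAdicComplete (IsLocalRing.maximalIdeal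 T) T] [Algebra 𝒪 T] [IsLocalHom (algebraMap 𝒪 T)] [Module.Finite 𝒪 T] [Module.Free 𝒪 T] (H : CuspForm.HeckeGaloisRepDatum N S 𝒪 θ T) (hS : ∀ q : ℕ, q.Prime → q ∣ N → q ∈ S) (h𝒟 : 𝒟 H.ρ) (hres : H.ρ.residual.IsEquiv (ρbar.baseChangeAlong (IsLocalRing.ResidueField.map (algebraMap 𝒪 T)))) : ∃ φ : D.R →ₐ[𝒪] T, Function.Surjective φ ∧ ∃ hφ : IsLocalHom (φ : D.R →+* T), (D.ρ.baseChangeAlong (φ : D.R →+* T) hφ).IsEquiv H.ρ := by
  obtain ⟨φ, ⟨hφ, he⟩, -⟩ := D.universal T H.residue_surjective H.ρ h𝒟 hres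
  refine ⟨φ, ?_, hφ, he⟩
  have hgen : ∀ t : CuspForm.heckeAlgebra N 2 S, H.π t ∈ φ.range := by
    rintro ⟨x, hx⟩
    refine Algebra.adjoin_induction
      (p := fun x hx => H.π (⟨x, hx⟩ : CuspForm.heckeAlgebra N 2 S) ∈ φ.range) ?_ ?_ ?_ ?_ hx
    · rintro x (⟨ℓ, hℓ, hℓN, hℓS, rfl⟩ | ⟨q, hqN, hq, hqS, rfl⟩)
      · obtain ⟨A, σ, hA, hσ⟩ := Fermat.Agent.Galois.exists_valuationSubring_isFrobeniusAt hℓ
        have htr : H.ρ.trace σ = H.π (CuspForm.heckeAlgebra.T hℓ hℓN hℓS) :=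
          trace_eq_of_charpoly (H.ρ.ρ σ) H.ρ.finrank_eq (H.charpoly_frob ℓ hℓ hℓN hℓS A hA σ hσ)
        refine ⟨D.ρ.trace σ, ?_⟩
        obtain ⟨e⟩ := he
        exact ((trace_baseChangeAlong (φ : D.R →+* T) hφ D.ρ σ).symm.trans
          (trace_eq_of_equiv e σ)).trans htr
      · exact absurd (hS q hq hqN) hqS
    · intro m
      exact (show H.π (algebraMap ℤ (CuspForm.heckeAlgebra N 2 S) m) ∈ φ.range by
        rw [eq_intCast, map_intCast]; exact intCast_mem _ m)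
    · intro x y hx hy hxp hyp
      exact (map_add H.π ⟨x, hx⟩ ⟨y, hy⟩).symm ▸ add_mem hxp hyp
    · intro x y hx hy hxp hyp
      exact (map_mul H.π ⟨x, hx⟩ ⟨y, hy⟩).symm ▸ mul_mem hxp hyp
  rw [← AlgHom.range_eq_top, eq_top_iff, ← H.adjoin_range_π, Algebra.adjoin_le_iff]
  rintro _ ⟨t, rfl⟩
  exact hgen t

end Fermat.Agent.S54
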