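import Fermat.Statements.S57
import Fermat.Agent.Patching.Free

set_option autoImplicit false
open Algebra Algebra.PatchingLevel

namespace Fermat.Agent.S57

theorem result
    {𝒪 : Type} [CommRing 𝒪] [IsDomain 𝒪] [IsDiscreteValuationRing 𝒪]
    {r : ℕ} {R : Type} [CommRing R] [Algebra 𝒪 R]
    {M : Type} [AddCommGroup M] [Module R M] [Nontrivial M]
    (L : Algebra.PatchingLevel 𝒪 r R M ⊥) :
    Module.Free R M ∧ Module.annihilator R M = ⊥ ∧
      RingHom.ker L.ψ = Ideal.span (Set.range fun i : Fin r => L.φ (MvPowerSeries.X i)) := by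
  classical
  set I := Ideal.span (Set.range fun i : Fin r => L.φ (MvPowerSeries.X i)) with hI
  have : Nontrivial L.N := L.π_surjective.nontrivial
  have hIle : I ≤ IsLocalRing.maximalIdeal (MvPowerSeries (Fin r) 𝒪) := by
    refine IsLocalRing.le_maximalIdeal fun htop => ?_
    obtain ⟨m, hm⟩ := exists_ne (0 : M)
    obtain ⟨x, rfl⟩ := L.π_surjective m
    refine hm ((L.ker_π x).2 ?_)
    rw [← hI, htop, Submodule.top_smul]
    exact Submodule.mem_top
  have hfree : Module.Free (MvPowerSeries (Fin r) 𝒪) L.N :=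
    Fermat.Agent.Patching.free_of_free_along L.φ L.b L.b_span
      (fun c hc i => by simpa using (L.b_rel c).1 hc i)
      (fun i => hIle (Ideal.subset_span ⟨i, rfl⟩))
  let β := Module.Free.chooseBasis (MvPowerSeries (Fin r) 𝒪) L.N
  have hcoord : ∀ (x : L.N), L.π x = 0 → ∀ j, β.repr x j ∈ I := by
    intro x hx j
    refine Submodule.smul_induction_on ((L.ker_π x).1 hx) (fun a ha n _ => ?_)
      (fun x y hx hy => ?_)
    · rw [map_smul, Finsupp.smul_apply, smul_eq_mul]
      exact I.mul_mem_right _ ha
    · rw [map_add, Finsupp.add_apply]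
      exact add_mem hx hy
  have hψI : I ≤ RingHom.ker L.ψ := Ideal.span_le.2 <| by
    rintro _ ⟨i, rfl⟩
    exact L.ψ_φ_X i
  obtain ⟨j0⟩ := β.index_nonempty
  have hker : RingHom.ker L.ψ = I := by
    refine le_antisymm (fun f hf => ?_) hψI
    have h0 : L.π (f • β j0) = 0 := by rw [L.π_smul, RingHom.mem_ker.1 hf, zero_smul]
    simpa using hcoord _ h0 j0
  have hli : LinearIndependent R fun j => L.π (β j) := by
    refine linearIndependent_iff'.2 fun s g hg j hj => ?_
    choose f hf using fun j => L.ψ_surjective (g j)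
    have h0 : L.π (∑ k ∈ s, f k • β k) = 0 := by
      rw [map_sum, ← hg]
      simp only [L.π_smul, hf]
    have := hcoord _ h0 j
    rw [map_sum, Finsupp.finsetSum_apply] at this
    simp only [map_smul, Module.Basis.repr_self, Finsupp.smul_single, smul_eq_mul, mul_one,
      Finsupp.single_apply] at this
    rw [Finset.sum_ite_eq', if_pos hj] at this
    rw [← hf j]
    exact RingHom.mem_ker.1 (hψI this)
  have hsp : ⊤ ≤ Submodule.span R (Set.range fun j => L.π (β j)) := by
    intro m _
    obtain ⟨x, rfl⟩ := L.π_surjective m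
    rw [← β.linearCombination_repr x, Finsupp.linearCombination_apply, Finsupp.sum, map_sum]
    refine sum_mem fun j _ => ?_
    rw [L.π_smul]
    exact Submodule.smul_mem _ _ (Submodule.subset_span ⟨j, rfl⟩)
  have hM : Module.Free R M := Module.Free.of_basis (Module.Basis.mk hli hsp)
  exact ⟨hM, Module.annihilator_eq_bot.2 inferInstance, hker⟩

end Fermat.Agent.S57
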