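import Fermat.Statements.S60
import Fermat.Agent.Semistable.Final

set_option autoImplicit false
open WeierstrassCurve WeierstrassCurve.Affine WeierstrassCurve.Affine.Point
open CuspForm ModularFormClass UpperHalfPlane
open WeierstrassCurve

namespace Fermat.Agent.S60

theorem result (W : WeierstrassCurve ℤ) (hΔ : W.Δ ≠ 0) (hW : W.IsSemistableModel) : (W.map (Int.castRingHom ℚ)).IsModular := by
  exact Fermat.Agent.Semistable.semistable_isModular Fermat.Agent.Semistable.semistableInputs_proved W hΔ hW

end Fermat.Agent.S60
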